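import Fermat.Agent.S24.LocalVal.Embed

set_option autoImplicit false

noncomputable section

namespace Fermat.Agent.S24.LocalVal

open UpperHalfPlane Filter Topology
open scoped Manifold WithZero MatrixGroups

/-- Rotation lemma, divisibility form. -/
theorem dvd_ordH_of_invariant {σ : SL(2, ℤ)} {τ : ℍ} (hσ : σ • τ = τ) {s : ℕ}
    (hprim : IsPrimitiveRoot (denom (σ : GL (Fin 2) ℝ) τ ^ 2) s)
    {g : ℍ → ℂ} (hg : IsHol g) (hg0 : g ≠ 0) (hinv : compFun σ g = g) :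
    ∃ m : ℕ, ordH g τ = m ∧ s ∣ m := by
  have hne : ordH g τ ≠ ⊤ := fun h => hg0 ((ordH_eq_top_iff hg τ).mp h)
  obtain ⟨m, hm⟩ := ENat.ne_top_iff_exists.mp hne
  refine ⟨m, hm.symm, ?_⟩
  exact (hprim.pow_eq_one_iff_dvd m).mp (rotation hσ hg hinv hm.symm)

section Lift

variable {A F : Type*} [CommRing A] [Field F] [Algebra A F] [IsFractionRing A F]
variable (φ : A →+* HolH) (hφ : Function.Injective φ)

/-- If the coset of `γ` is fixed by `σ` (in the sense that `γ σ γ⁻¹` fixes every `φ a`), `σ`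
fixes `τ` and acts on the tangent space at `τ` by a primitive `s`-th root of unity, then all
`ι_γ`-orders at `τ` are divisible by `s`. -/
theorem dvd_log_wAt_merEmb_of_fixed (γ : SL(2, ℤ)) {σ : SL(2, ℤ)} {τ : ℍ} (hσ : σ • τ = τ) {s : ℕ}
    (hprim : IsPrimitiveRoot (denom (σ : GL (Fin 2) ℝ) τ ^ 2) s)
    (hinv : ∀ a : A, compFun (γ * σ * γ⁻¹) (φ a : ℍ → ℂ) = (φ a : ℍ → ℂ))
    {x : F} (hx : x ≠ 0) :
    (s : ℤ) ∣ WithZero.log (wAt τ (merEmb (F := F) φ hφ γ x)) := by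
  refine dvd_log_wAt_merEmb φ hφ γ τ s (fun a ha => ?_) hx
  rw [← ordH_compFun]
  have hg : IsHol (compFun γ (φ a : ℍ → ℂ)) := (HolH.isHol (φ a)).compFun γ
  have hg0 : compFun γ (φ a : ℍ → ℂ) ≠ 0 := by
    intro h
    have h1 : compHol γ (φ a) = 0 := Subtype.ext h
    have h2 : φ a = 0 := compHol_injective γ (by rw [h1, map_zero])
    exact ha (hφ (by rw [h2, map_zero]))
  refine dvd_ordH_of_invariant hσ hprim hg hg0 ?_
  have h1 : compFun σ (compFun γ (φ a : ℍ → ℂ)) = compFun (γ * σ) (φ a : ℍ → ℂ) :=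
    (compFun_mul γ σ _).symm
  have h2 : γ * σ = (γ * σ * γ⁻¹) * γ := by group
  rw [h1, h2, compFun_mul, hinv a]

end Lift

/-! ### The two elliptic points -/

theorem S_smul_I : ModularGroup.S • UpperHalfPlane.I = UpperHalfPlane.I := by
  rw [modular_S_smul]
  ext
  simp

theorem denom_S_I : denom (ModularGroup.S : GL (Fin 2) ℝ) UpperHalfPlane.I = Complex.I := by
  rw [ModularGroup.denom_S]
  rfl

theorem isPrimitiveRoot_denom_S_I :
    IsPrimitiveRoot (denom (ModularGroup.S : GL (Fin 2) ℝ) UpperHalfPlane.I ^ 2) 2 := by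
  rw [denom_S_I, Complex.I_sq]
  exact IsPrimitiveRoot.neg_one 0 (by norm_num)

/-- `S`-invariant nonzero holomorphic functions have even order at `i`. -/
theorem even_ordH_I {g : ℍ → ℂ} (hg : IsHol g) (hg0 : g ≠ 0)
    (hinv : compFun ModularGroup.S g = g) :
    ∃ m : ℕ, ordH g UpperHalfPlane.I = m ∧ 2 ∣ m :=
  dvd_ordH_of_invariant S_smul_I isPrimitiveRoot_denom_S_I hg hg0 hinv

theorem ST_smul_of_root {τ : ℍ} (hτ : (τ : ℂ) ^ 2 + τ + 1 = 0) :
    (ModularGroup.S * ModularGroup.T) • τ = τ := by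
  rw [mul_smul, modular_T_smul, modular_S_smul]
  ext
  simp only [coe_vadd, Complex.ofReal_one]
  have h : (τ : ℂ) * (-(1 + (τ : ℂ))) = 1 := by linear_combination -hτ
  exact (eq_inv_of_mul_eq_one_left h).symm

theorem denom_ST (τ : ℍ) :
    denom ((ModularGroup.S * ModularGroup.T : SL(2, ℤ)) : GL (Fin 2) ℝ) τ = (τ : ℂ) + 1 := by
  rw [ModularGroup.denom_apply]
  have h10 : (ModularGroup.S * ModularGroup.T : SL(2, ℤ)) 1 0 = 1 := by decide
  have h11 : (ModularGroup.S * ModularGroup.T : SL(2, ℤ)) 1 1 = 1 := by decide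
  rw [h10, h11]
  simp

theorem isPrimitiveRoot_of_root {z : ℂ} (hz : z ^ 2 + z + 1 = 0) : IsPrimitiveRoot z 3 := by
  have h3 : z ^ 3 = 1 := by linear_combination (z - 1) * hz
  refine IsPrimitiveRoot.mk_of_lt z (by norm_num) h3 ?_
  intro l hl0 hl3 hl
  interval_cases l
  · rw [pow_one] at hl
    rw [hl] at hz
    norm_num at hz
  · have : z = -2 := by linear_combination hz - hl
    rw [this] at hz
    norm_num at hz

theorem isPrimitiveRoot_denom_ST {τ : ℍ} (hτ : (τ : ℂ) ^ 2 + τ + 1 = 0) :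
    IsPrimitiveRoot
      (denom ((ModularGroup.S * ModularGroup.T : SL(2, ℤ)) : GL (Fin 2) ℝ) τ ^ 2) 3 := by
  rw [denom_ST]
  have : ((τ : ℂ) + 1) ^ 2 = τ := by linear_combination hτ
  rw [this]
  exact isPrimitiveRoot_of_root hτ

/-- `S T`-invariant nonzero holomorphic functions have order divisible by `3` at `ρ`. -/
theorem three_dvd_ordH_rho {τ : ℍ} (hτ : (τ : ℂ) ^ 2 + τ + 1 = 0) {g : ℍ → ℂ} (hg : IsHol g)
    (hg0 : g ≠ 0) (hinv : compFun (ModularGroup.S * ModularGroup.T) g = g) :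
    ∃ m : ℕ, ordH g τ = m ∧ 3 ∣ m :=
  dvd_ordH_of_invariant (ST_smul_of_root hτ) (isPrimitiveRoot_denom_ST hτ) hg hg0 hinv

end Fermat.Agent.S24.LocalVal
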