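import Fermat.Agent.S24.LocalVal.Rotation

set_option autoImplicit false

noncomputable section

namespace Fermat.Agent.S24.LocalVal

open UpperHalfPlane Filter Topology
open scoped Manifold WithZero MatrixGroups

/-- Precomposition with `γ : SL(2,ℤ)` as an algebra endomorphism of `HolH`. -/
def compHol (γ : SL(2, ℤ)) : HolH →ₐ[ℂ] HolH where
  toFun f := ⟨compFun γ (f : ℍ → ℂ), (HolH.isHol f).compFun γ⟩
  map_one' := rfl
  map_mul' _ _ := rfl
  map_zero' := rfl
  map_add' _ _ := rfl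
  commutes' _ := rfl

@[simp] theorem coe_compHol (γ : SL(2, ℤ)) (f : HolH) :
    ((compHol γ f : HolH) : ℍ → ℂ) = compFun γ (f : ℍ → ℂ) := rfl

theorem compHol_one (f : HolH) : compHol 1 f = f :=
  Subtype.ext (compFun_one _)

theorem compHol_mul (γ γ' : SL(2, ℤ)) (f : HolH) :
    compHol (γ * γ') f = compHol γ' (compHol γ f) :=
  Subtype.ext (compFun_mul γ γ' _)

theorem compHol_injective (γ : SL(2, ℤ)) : Function.Injective (compHol γ) := by
  intro f g h
  have := congrArg (compHol γ⁻¹) h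
  rwa [← compHol_mul, ← compHol_mul, mul_inv_cancel, compHol_one, compHol_one] at this

theorem ordVal_compHol (γ : SL(2, ℤ)) (τ : ℍ) (f : HolH) :
    ordVal τ (compHol γ f) = ordVal (γ • τ) f := by
  rw [ordVal_apply, ordVal_apply, coe_compHol, ordH_compFun]

theorem ordVal_algebraMap {c : ℂ} (hc : c ≠ 0) (τ : ℍ) :
    ordVal τ (algebraMap ℂ HolH c) = 1 := by
  rw [ordVal_apply]
  have : ((algebraMap ℂ HolH c : HolH) : ℍ → ℂ) = fun _ => c := rfl
  rw [this, ordH_const hc, enatVal_zero]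

section Lift

variable {A F : Type*} [CommRing A] [Field F] [Algebra A F] [IsFractionRing A F]

theorem algebraMap_HolH_MerH_injective : Function.Injective (algebraMap HolH MerH) :=
  IsFractionRing.injective HolH MerH

/-- The ring hom `A → MerH`, `a ↦ (φ a) ∘ γ`. -/
def twist (φ : A →+* HolH) (γ : SL(2, ℤ)) : A →+* MerH :=
  (algebraMap HolH MerH).comp ((compHol γ).toRingHom.comp φ)

theorem twist_apply (φ : A →+* HolH) (γ : SL(2, ℤ)) (a : A) :
    twist φ γ a = algebraMap HolH MerH (compHol γ (φ a)) := rfl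

theorem twist_injective {φ : A →+* HolH} (hφ : Function.Injective φ) (γ : SL(2, ℤ)) :
    Function.Injective (twist φ γ) :=
  algebraMap_HolH_MerH_injective.comp ((compHol_injective γ).comp hφ)

/-- The field embedding `F → MerH` induced by `a ↦ (φ a) ∘ γ` on a ring `A` with `Frac A = F`. -/
def merEmb (φ : A →+* HolH) (hφ : Function.Injective φ) (γ : SL(2, ℤ)) : F →+* MerH :=
  IsFractionRing.lift (twist_injective hφ γ)

variable (φ : A →+* HolH) (hφ : Function.Injective φ)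

@[simp] theorem merEmb_algebraMap (γ : SL(2, ℤ)) (a : A) :
    merEmb (F := F) φ hφ γ (algebraMap A F a) = algebraMap HolH MerH (compHol γ (φ a)) :=
  IsFractionRing.lift_algebraMap (twist_injective hφ γ) a

theorem merEmb_injective (γ : SL(2, ℤ)) : Function.Injective (merEmb (F := F) φ hφ γ) :=
  (merEmb (F := F) φ hφ γ).injective

/-- Two embeddings agree as soon as they agree on `A`. -/
theorem merEmb_ext {ι ι' : F →+* MerH}
    (h : ∀ a : A, ι (algebraMap A F a) = ι' (algebraMap A F a)) : ι = ι' := by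
  refine IsLocalization.ringHom_ext (nonZeroDivisors A) ?_
  exact RingHom.ext h

theorem merEmb_eq_of_forall {γ γ' : SL(2, ℤ)}
    (h : ∀ a : A, compFun γ (φ a : ℍ → ℂ) = compFun γ' (φ a : ℍ → ℂ)) :
    merEmb (F := F) φ hφ γ = merEmb (F := F) φ hφ γ' := by
  refine merEmb_ext (A := A) fun a => ?_
  rw [merEmb_algebraMap, merEmb_algebraMap]
  congr 1
  exact Subtype.ext (h a)

theorem merEmb_ne_of_exists {γ γ' : SL(2, ℤ)}
    (h : ∃ a : A, compFun γ (φ a : ℍ → ℂ) ≠ compFun γ' (φ a : ℍ → ℂ)) :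
    merEmb (F := F) φ hφ γ ≠ merEmb (F := F) φ hφ γ' := by
  obtain ⟨a, ha⟩ := h
  intro heq
  have h1 := congrArg (fun ι : F →+* MerH => ι (algebraMap A F a)) heq
  simp only [merEmb_algebraMap] at h1
  have h2 := algebraMap_HolH_MerH_injective h1
  exact ha (congrArg (fun f : HolH => (f : ℍ → ℂ)) h2)

/-- If every `φ a` is `δ`-invariant then `ι_{δ γ} = ι_γ`. -/
theorem merEmb_mul_left_of_invariant {δ : SL(2, ℤ)}
    (hδ : ∀ a : A, compFun δ (φ a : ℍ → ℂ) = (φ a : ℍ → ℂ)) (γ : SL(2, ℤ)) :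
    merEmb (F := F) φ hφ (δ * γ) = merEmb (F := F) φ hφ γ := by
  refine merEmb_eq_of_forall φ hφ fun a => ?_
  rw [compFun_mul, hδ]

/-- Elements of `A` that are `γ`-invariant have the same image under `ι_γ` and `ι_1`. -/
theorem merEmb_algebraMap_of_invariant {γ : SL(2, ℤ)} {a : A}
    (h : compFun γ (φ a : ℍ → ℂ) = (φ a : ℍ → ℂ)) :
    merEmb (F := F) φ hφ γ (algebraMap A F a) = merEmb (F := F) φ hφ 1 (algebraMap A F a) := by
  rw [merEmb_algebraMap, merEmb_algebraMap]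
  congr 1
  refine Subtype.ext ?_
  rw [coe_compHol, coe_compHol, h, compFun_one]

theorem wAt_merEmb_algebraMap (γ : SL(2, ℤ)) (τ : ℍ) (a : A) :
    wAt τ (merEmb (F := F) φ hφ γ (algebraMap A F a)) = enatVal (ordH (φ a : ℍ → ℂ) (γ • τ)) := by
  rw [merEmb_algebraMap, wAt_algebraMap, ordVal_compHol, ordVal_apply]

/-- `w_τ ∘ ι_γ = w_{γ τ} ∘ ι_1`. -/
theorem wAt_merEmb (γ : SL(2, ℤ)) (τ : ℍ) (x : F) :
    wAt τ (merEmb (F := F) φ hφ γ x) = wAt (γ • τ) (merEmb (F := F) φ hφ 1 x) := by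
  obtain ⟨a, b, hb, rfl⟩ := IsFractionRing.div_surjective (A := A) x
  rw [map_div₀, map_div₀, map_div₀, map_div₀, wAt_merEmb_algebraMap, wAt_merEmb_algebraMap,
    wAt_merEmb_algebraMap, wAt_merEmb_algebraMap, one_smul]

/-- Invariance of the valuation under right multiplication by an element fixing `τ`. -/
theorem wAt_merEmb_mul_fixed (γ : SL(2, ℤ)) {σ : SL(2, ℤ)} {τ : ℍ} (hσ : σ • τ = τ) (x : F) :
    wAt τ (merEmb (F := F) φ hφ (γ * σ) x) = wAt τ (merEmb (F := F) φ hφ γ x) := by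
  rw [wAt_merEmb, wAt_merEmb φ hφ γ, mul_smul, hσ]

theorem wAt_merEmb_ne_zero (γ : SL(2, ℤ)) (τ : ℍ) {x : F} (hx : x ≠ 0) :
    wAt τ (merEmb (F := F) φ hφ γ x) ≠ 0 :=
  (Valuation.ne_zero_iff _).mpr ((map_ne_zero_iff _ (merEmb_injective φ hφ γ)).mpr hx)

/-- Divisibility of all orders: if the orders at `τ` of all nonzero `(φ a) ∘ γ` are divisible by
`s`, then so is the order of every nonzero element of `F` under `ι_γ`. -/
theorem dvd_log_wAt_merEmb (γ : SL(2, ℤ)) (τ : ℍ) (s : ℕ)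
    (hdiv : ∀ a : A, a ≠ 0 → ∃ m : ℕ, ordH (φ a : ℍ → ℂ) (γ • τ) = m ∧ s ∣ m)
    {x : F} (hx : x ≠ 0) :
    (s : ℤ) ∣ WithZero.log (wAt τ (merEmb (F := F) φ hφ γ x)) := by
  obtain ⟨a, b, hb, rfl⟩ := IsFractionRing.div_surjective (A := A) x
  have : Nontrivial A := (algebraMap A F).domain_nontrivial
  have hb0' : b ≠ 0 := nonZeroDivisors.ne_zero hb
  have hb0 : algebraMap A F b ≠ 0 :=
    (map_ne_zero_iff _ (IsFractionRing.injective A F)).mpr hb0'
  have ha0' : a ≠ 0 := by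
    rintro rfl
    simp at hx
  obtain ⟨m, hm, hsm⟩ := hdiv a ha0'
  obtain ⟨n, hn, hsn⟩ := hdiv b hb0'
  rw [map_div₀, map_div₀, wAt_merEmb_algebraMap, wAt_merEmb_algebraMap, hm, hn, enatVal_coe,
    enatVal_coe, ← WithZero.exp_sub, WithZero.log_exp]
  have h1 : (s : ℤ) ∣ (m : ℤ) := by exact_mod_cast hsm
  have h2 : (s : ℤ) ∣ (n : ℤ) := by exact_mod_cast hsn
  exact dvd_sub (dvd_neg.mpr h1) (dvd_neg.mpr h2)

end Lift

end Fermat.Agent.S24.LocalVal
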