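import Fermat.Agent.S24.LocalVal.Hol

set_option autoImplicit false

noncomputable section

namespace Fermat.Agent.S24.LocalVal

open UpperHalfPlane Filter Topology
open scoped Manifold WithZero

/-- `n ↦ exp (-n)`, `⊤ ↦ 0`. -/
def enatVal (a : ℕ∞) : ℤᵐ⁰ := if a = ⊤ then 0 else WithZero.exp (-(a.toNat : ℤ))

@[simp] theorem enatVal_top : enatVal ⊤ = 0 := by simp [enatVal]

@[simp] theorem enatVal_coe (n : ℕ) : enatVal (n : ℕ∞) = WithZero.exp (-(n : ℤ)) := by
  simp [enatVal]

@[simp] theorem enatVal_zero : enatVal 0 = 1 := by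
  have := enatVal_coe 0
  simpa using this

@[simp] theorem enatVal_one : enatVal 1 = WithZero.exp (-1 : ℤ) := by
  have := enatVal_coe 1
  simpa using this

theorem enatVal_eq_zero {a : ℕ∞} : enatVal a = 0 ↔ a = ⊤ := by
  constructor
  · intro h
    by_contra ha
    simp [enatVal, ha] at h
  · rintro rfl; simp

theorem enatVal_add (a b : ℕ∞) : enatVal (a + b) = enatVal a * enatVal b := by
  induction a using ENat.recTopCoe with
  | top => simp
  | coe m =>
    induction b using ENat.recTopCoe with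
    | top => simp
    | coe n =>
      rw [← ENat.natCast_add, enatVal_coe, enatVal_coe, enatVal_coe, ← WithZero.exp_add]
      congr 1
      push_cast
      ring

theorem enatVal_anti {a b : ℕ∞} (h : a ≤ b) : enatVal b ≤ enatVal a := by
  induction b using ENat.recTopCoe with
  | top => simp
  | coe n =>
    induction a using ENat.recTopCoe with
    | top => simp at h
    | coe m =>
      rw [enatVal_coe, enatVal_coe, WithZero.exp_le_exp]
      have : m ≤ n := by exact_mod_cast h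
      omega

theorem enatVal_le_iff {a b : ℕ∞} : enatVal b ≤ enatVal a ↔ a ≤ b := by
  refine ⟨fun h => ?_, enatVal_anti⟩
  induction b using ENat.recTopCoe with
  | top => simp
  | coe n =>
    induction a using ENat.recTopCoe with
    | top =>
      rw [enatVal_top, enatVal_coe] at h
      exact absurd h (not_le.mpr WithZero.exp_pos)
    | coe m =>
      rw [enatVal_coe, enatVal_coe, WithZero.exp_le_exp] at h
      have : m ≤ n := by omega
      exact_mod_cast this

theorem enatVal_injective : Function.Injective enatVal := by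
  intro a b h
  exact le_antisymm (enatVal_le_iff.mp h.ge) (enatVal_le_iff.mp h.le)

theorem enatVal_min_le {a b c : ℕ∞} (h : min a b ≤ c) :
    enatVal c ≤ max (enatVal a) (enatVal b) := by
  rcases min_le_iff.mp h with h | h
  · exact le_max_of_le_left (enatVal_anti h)
  · exact le_max_of_le_right (enatVal_anti h)

/-- The order of vanishing of a function on `ℍ` at a point. -/
def ordH (f : ℍ → ℂ) (τ : ℍ) : ℕ∞ := analyticOrderAt (ext f) (τ : ℂ)

theorem ordH_zero (τ : ℍ) : ordH 0 τ = ⊤ := order_zero τ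

theorem ordH_eq_top_iff {f : ℍ → ℂ} (hf : IsHol f) (τ : ℍ) : ordH f τ = ⊤ ↔ f = 0 :=
  ⟨fun h => hf.eq_zero_of_order_top h, fun h => by rw [h]; exact ordH_zero τ⟩

theorem ordH_mul {f g : ℍ → ℂ} (hf : IsHol f) (hg : IsHol g) (τ : ℍ) :
    ordH (f * g) τ = ordH f τ + ordH g τ :=
  analyticOrderAt_mul (hf.analyticAt τ) (hg.analyticAt τ)

theorem ordH_add (f g : ℍ → ℂ) (τ : ℍ) :
    min (ordH f τ) (ordH g τ) ≤ ordH (f + g) τ :=
  le_analyticOrderAt_add

theorem ordH_const {c : ℂ} (hc : c ≠ 0) (τ : ℍ) : ordH (fun _ => c) τ = 0 := by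
  rw [ordH, analyticOrderAt_eq_zero]
  right
  simpa [ext] using hc

theorem ordH_eq_zero_iff {f : ℍ → ℂ} (hf : IsHol f) (τ : ℍ) : ordH f τ = 0 ↔ f τ ≠ 0 := by
  rw [ordH, (hf.analyticAt τ).analyticOrderAt_eq_zero, comp_ofComplex]

theorem ordH_pos_iff {f : ℍ → ℂ} (hf : IsHol f) (τ : ℍ) : 0 < ordH f τ ↔ f τ = 0 := by
  rw [pos_iff_ne_zero, ne_eq, ordH_eq_zero_iff hf, not_not]

/-- The order valuation at `τ` on holomorphic functions. -/
def ordVal (τ : ℍ) : Valuation HolH ℤᵐ⁰ where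
  toFun f := enatVal (ordH (f : ℍ → ℂ) τ)
  map_zero' := by
    show enatVal (ordH (0 : ℍ → ℂ) τ) = 0
    rw [ordH_zero, enatVal_top]
  map_one' := by
    show enatVal (ordH (1 : ℍ → ℂ) τ) = 1
    have : ordH (1 : ℍ → ℂ) τ = 0 := ordH_const (c := 1) one_ne_zero τ
    rw [this, enatVal_zero]
  map_mul' f g := by
    show enatVal (ordH ((f : ℍ → ℂ) * (g : ℍ → ℂ)) τ) = _
    rw [ordH_mul (HolH.isHol f) (HolH.isHol g), enatVal_add]
  map_add_le_max' f g := by
    show enatVal (ordH ((f : ℍ → ℂ) + (g : ℍ → ℂ)) τ) ≤ _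
    exact enatVal_min_le (ordH_add _ _ τ)

theorem ordVal_apply (τ : ℍ) (f : HolH) : ordVal τ f = enatVal (ordH (f : ℍ → ℂ) τ) := rfl

theorem ordVal_eq_zero_iff (τ : ℍ) (f : HolH) : ordVal τ f = 0 ↔ f = 0 := by
  rw [ordVal_apply, enatVal_eq_zero, ordH_eq_top_iff (HolH.isHol f), HolH.coe_eq_zero]

theorem nonZeroDivisors_le_supp (τ : ℍ) :
    nonZeroDivisors HolH ≤ (ordVal τ).supp.primeCompl := by
  intro f hf
  show f ∉ (ordVal τ).supp
  rw [Valuation.mem_supp_iff, ordVal_eq_zero_iff]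
  exact nonZeroDivisors.ne_zero hf

/-- The field of fractions of the ring of holomorphic functions on `ℍ`. -/
abbrev MerH : Type := FractionRing HolH

/-- The order valuation at `τ` on the field `MerH`. -/
def wAt (τ : ℍ) : Valuation MerH ℤᵐ⁰ :=
  (ordVal τ).extendToLocalization (nonZeroDivisors_le_supp τ) MerH

@[simp] theorem wAt_algebraMap (τ : ℍ) (f : HolH) :
    wAt τ (algebraMap HolH MerH f) = ordVal τ f :=
  Valuation.extendToLocalization_apply_map_apply _ _ _ f

theorem ordVal_eq_exp_iff (τ : ℍ) (f : HolH) (n : ℕ) :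
    ordVal τ f = WithZero.exp (-(n : ℤ)) ↔ ordH (f : ℍ → ℂ) τ = n := by
  rw [ordVal_apply, ← enatVal_coe]
  exact enatVal_injective.eq_iff

theorem ordVal_le_one (τ : ℍ) (f : HolH) : ordVal τ f ≤ 1 := by
  rw [ordVal_apply, ← enatVal_zero]
  exact enatVal_anti zero_le

theorem ordVal_lt_one_iff (τ : ℍ) (f : HolH) : ordVal τ f < 1 ↔ (f : ℍ → ℂ) τ = 0 := by
  rw [← ordH_pos_iff (HolH.isHol f), ordVal_apply, ← enatVal_zero, lt_iff_le_and_ne,
    enatVal_le_iff, enatVal_injective.ne_iff, pos_iff_ne_zero]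
  constructor
  · rintro ⟨-, h⟩; exact h
  · intro h; exact ⟨zero_le, h⟩

theorem ordVal_eq_one_iff (τ : ℍ) (f : HolH) : ordVal τ f = 1 ↔ (f : ℍ → ℂ) τ ≠ 0 := by
  rw [← ordH_eq_zero_iff (HolH.isHol f), ordVal_apply, ← enatVal_zero]
  exact enatVal_injective.eq_iff

/-- `f - f(τ)` has positive order at `τ`. -/
theorem ordVal_sub_const_lt_one (τ : ℍ) (f : HolH) :
    ordVal τ (f - algebraMap ℂ HolH ((f : ℍ → ℂ) τ)) < 1 := by
  rw [ordVal_lt_one_iff]
  show (f : ℍ → ℂ) τ - (f : ℍ → ℂ) τ = 0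
  exact sub_self _

/-- If the derivative does not vanish, `f - f(τ)` has order exactly one at `τ`. -/
theorem ordH_sub_const_of_deriv_ne_zero (τ : ℍ) {f : ℍ → ℂ} (hf : IsHol f)
    (hd : deriv (ext f) (τ : ℂ) ≠ 0) : ordH (f - fun _ => f τ) τ = 1 := by
  have h := (hf.analyticAt τ).analyticOrderAt_sub_eq_one_of_deriv_ne_zero hd
  rw [ordH]
  convert h using 2
  funext z
  simp [ext, ofComplex_apply]

theorem ordVal_sub_const_of_deriv_ne_zero (τ : ℍ) (f : HolH)
    (hd : deriv (ext (f : ℍ → ℂ)) (τ : ℂ) ≠ 0) :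
    ordVal τ (f - algebraMap ℂ HolH ((f : ℍ → ℂ) τ)) = WithZero.exp (-1 : ℤ) := by
  have h := ordH_sub_const_of_deriv_ne_zero τ (HolH.isHol f) hd
  rw [ordVal_apply]
  show enatVal (ordH ((f : ℍ → ℂ) - fun _ => (f : ℍ → ℂ) τ) τ) = _
  rw [h, enatVal_one]

end Fermat.Agent.S24.LocalVal
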