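import Fermat.Agent.S24.LocalVal.Ord

set_option autoImplicit false

noncomputable section

namespace Fermat.Agent.S24.LocalVal

open UpperHalfPlane Filter Topology
open scoped Manifold WithZero MatrixGroups

/-- Rotation lemma: if `G ∘ S = G` near a fixed point `z0` of `S`, and `G` has finite order `m`
at `z0`, then `S' z0 ^ m = 1`. -/
theorem rotation_aux {G S : ℂ → ℂ} {z0 : ℂ} {m : ℕ} (hG : AnalyticAt ℂ G z0)
    (hS : AnalyticAt ℂ S z0) (hS0 : S z0 = z0) (hm : analyticOrderAt G z0 = m)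
    (hGS : ∀ᶠ z in 𝓝 z0, G (S z) = G z) : deriv S z0 ^ m = 1 := by
  obtain ⟨H, hHa, hH0, hH⟩ := hG.analyticOrderAt_eq_natCast.mp hm
  set K : ℂ → ℂ := dslope S z0 with hK
  have hK0 : K z0 = deriv S z0 := dslope_same S z0
  have hKc : ContinuousAt K z0 := continuousAt_dslope_same.mpr hS.differentiableAt
  have hSK : ∀ z, S z - z0 = (z - z0) * K z := by
    intro z
    have := sub_smul_dslope S z0 z
    rw [hS0] at this
    rw [← this, smul_eq_mul]
  have hSt : Tendsto S (𝓝 z0) (𝓝 z0) := by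
    have := hS.continuousAt.tendsto
    rwa [hS0] at this
  have hH' : ∀ᶠ z in 𝓝 z0, G (S z) = (S z - z0) ^ m • H (S z) := hSt.eventually hH
  have hev : ∀ᶠ z in 𝓝[≠] z0, H z = K z ^ m * H (S z) := by
    have h1 : ∀ᶠ z in 𝓝[≠] z0, G z = (z - z0) ^ m • H z := hH.filter_mono nhdsWithin_le_nhds
    have h2 : ∀ᶠ z in 𝓝[≠] z0, G (S z) = (S z - z0) ^ m • H (S z) :=
      hH'.filter_mono nhdsWithin_le_nhds
    have h3 : ∀ᶠ z in 𝓝[≠] z0, G (S z) = G z := hGS.filter_mono nhdsWithin_le_nhds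
    filter_upwards [h1, h2, h3, self_mem_nhdsWithin] with z hz1 hz2 hz3 hz
    have hne : (z - z0) ^ m ≠ 0 := pow_ne_zero _ (sub_ne_zero_of_ne hz)
    rw [hz3, hz1, hSK z, mul_pow, smul_eq_mul, smul_eq_mul, mul_assoc] at hz2
    exact mul_left_cancel₀ hne hz2
  have hc1 : ContinuousAt H z0 := hHa.continuousAt
  have hc2 : ContinuousAt (fun z => K z ^ m * H (S z)) z0 := by
    refine (hKc.pow m).mul ?_
    have : ContinuousAt H (S z0) := by rw [hS0]; exact hc1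
    exact ContinuousAt.comp (f := S) (g := H) this hS.continuousAt
  have hlim := tendsto_nhds_unique_of_eventuallyEq (l := 𝓝[≠] z0)
    hc1.continuousWithinAt hc2.continuousWithinAt hev
  simp only at hlim
  rw [hS0, hK0] at hlim
  have : (deriv S z0 ^ m - 1) * H z0 = 0 := by
    rw [sub_mul, one_mul, ← hlim, sub_self]
  rcases mul_eq_zero.mp this with h | h
  · exact sub_eq_zero.mp h
  · exact absurd h hH0

/-- The Moebius map of `γ : SL(2,ℤ)` extended to `ℂ`. -/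
def moeb (γ : SL(2, ℤ)) : ℂ → ℂ := fun z => ((γ • ofComplex z : ℍ) : ℂ)

theorem moeb_apply (γ : SL(2, ℤ)) (τ : ℍ) : moeb γ (τ : ℂ) = ((γ • τ : ℍ) : ℂ) := by
  simp [moeb, ofComplex_apply]

theorem glDet_eq_one (γ : SL(2, ℤ)) : ((γ : GL (Fin 2) ℝ)).val.det = 1 := by
  have := Matrix.SpecialLinearGroup.det_coe (Matrix.SpecialLinearGroup.map (Int.castRingHom ℝ) γ)
  simpa using this

theorem glDet_pos (γ : SL(2, ℤ)) : 0 < ((γ : GL (Fin 2) ℝ)).val.det := by
  rw [glDet_eq_one]; exact one_pos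

theorem moeb_analyticAt (γ : SL(2, ℤ)) (τ : ℍ) : AnalyticAt ℂ (moeb γ) (τ : ℂ) :=
  UpperHalfPlane.analyticAt_smul (g := (γ : GL (Fin 2) ℝ)) (glDet_pos γ) τ

theorem moeb_deriv (γ : SL(2, ℤ)) (τ : ℍ) :
    deriv (moeb γ) (τ : ℂ) = 1 / denom (γ : GL (Fin 2) ℝ) τ ^ 2 := by
  have := UpperHalfPlane.deriv_smul (g := (γ : GL (Fin 2) ℝ)) (glDet_pos γ) τ
  rw [glDet_eq_one] at this
  rw [← Complex.ofReal_one]
  exact this

theorem moeb_deriv_ne_zero (γ : SL(2, ℤ)) (τ : ℍ) : deriv (moeb γ) (τ : ℂ) ≠ 0 :=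
  UpperHalfPlane.deriv_smul_ne_zero (g := (γ : GL (Fin 2) ℝ)) (glDet_pos γ) τ

/-- Precomposition of a function on `ℍ` with `γ : SL(2,ℤ)`. -/
def compFun (γ : SL(2, ℤ)) (f : ℍ → ℂ) : ℍ → ℂ := fun τ => f (γ • τ)

@[simp] theorem compFun_apply (γ : SL(2, ℤ)) (f : ℍ → ℂ) (τ : ℍ) : compFun γ f τ = f (γ • τ) := rfl

theorem ext_compFun (γ : SL(2, ℤ)) (f : ℍ → ℂ) : ext (compFun γ f) = ext f ∘ moeb γ := by
  funext z
  simp [ext, compFun, moeb, ofComplex_apply]

theorem IsHol.compFun {f : ℍ → ℂ} (hf : IsHol f) (γ : SL(2, ℤ)) : IsHol (compFun γ f) := by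
  have h := UpperHalfPlane.mdifferentiable_smul (g := (γ : GL (Fin 2) ℝ)) (glDet_pos γ)
  exact MDifferentiable.comp (g := f) hf h

theorem compFun_one (f : ℍ → ℂ) : compFun 1 f = f := by
  funext τ; simp

theorem compFun_mul (γ γ' : SL(2, ℤ)) (f : ℍ → ℂ) :
    compFun (γ * γ') f = compFun γ' (compFun γ f) := by
  funext τ; simp [mul_smul]

theorem ordH_compFun (γ : SL(2, ℤ)) (f : ℍ → ℂ) (τ : ℍ) :
    ordH (compFun γ f) τ = ordH f (γ • τ) := by
  rw [ordH, ext_compFun, analyticOrderAt_comp_of_deriv_ne_zero (moeb_analyticAt γ τ)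
    (moeb_deriv_ne_zero γ τ), moeb_apply, ordH]

/-- Rotation lemma on `ℍ`: a nonzero holomorphic `σ`-invariant function has order `m` at a fixed
point `τ` of `σ` with `(denom σ τ ^ 2) ^ m = 1`. -/
theorem rotation {σ : SL(2, ℤ)} {τ : ℍ} (hσ : σ • τ = τ) {g : ℍ → ℂ} (hg : IsHol g)
    (hinv : compFun σ g = g) {m : ℕ} (hm : ordH g τ = m) :
    (denom (σ : GL (Fin 2) ℝ) τ ^ 2) ^ m = 1 := by
  have h1 : deriv (moeb σ) (τ : ℂ) ^ m = 1 := by
    refine rotation_aux (G := ext g) (hg.analyticAt τ) (moeb_analyticAt σ τ) ?_ hm ?_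
    · rw [moeb_apply, hσ]
    · refine Filter.Eventually.of_forall fun z => ?_
      have := congrFun (ext_compFun σ g) z
      rw [hinv] at this
      exact this.symm
  rw [moeb_deriv, one_div, inv_pow] at h1
  exact inv_eq_one.mp h1

end Fermat.Agent.S24.LocalVal
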