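import Mathlib

set_option autoImplicit false

noncomputable section

namespace Fermat.Agent.S24.LocalVal

open UpperHalfPlane Complex Filter Topology
open scoped Manifold

/-- Holomorphy predicate for functions on the upper half plane. -/
def IsHol (f : ℍ → ℂ) : Prop := MDifferentiable 𝓘(ℂ) 𝓘(ℂ) f

theorem isHol_iff {f : ℍ → ℂ} :
    IsHol f ↔ DifferentiableOn ℂ (f ∘ ofComplex) {z : ℂ | 0 < z.im} :=
  UpperHalfPlane.mdifferentiable_iff

theorem IsHol.analyticAt {f : ℍ → ℂ} (hf : IsHol f) (τ : ℍ) :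
    AnalyticAt ℂ (f ∘ ofComplex) (τ : ℂ) :=
  (isHol_iff.mp hf).analyticAt (isOpen_upperHalfPlaneSet.mem_nhds τ.im_pos)

theorem isHol_const (c : ℂ) : IsHol (fun _ : ℍ => c) := mdifferentiable_const

theorem IsHol.add {f g : ℍ → ℂ} (hf : IsHol f) (hg : IsHol g) : IsHol (f + g) :=
  MDifferentiable.add hf hg

theorem IsHol.mul {f g : ℍ → ℂ} (hf : IsHol f) (hg : IsHol g) : IsHol (f * g) :=
  MDifferentiable.mul hf hg

theorem IsHol.neg {f : ℍ → ℂ} (hf : IsHol f) : IsHol (-f) :=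
  MDifferentiable.neg hf

/-- The `ℂ`-algebra of holomorphic functions on the upper half plane. -/
def HolH : Subalgebra ℂ (ℍ → ℂ) where
  carrier := {f | IsHol f}
  mul_mem' hf hg := IsHol.mul hf hg
  add_mem' hf hg := IsHol.add hf hg
  algebraMap_mem' c := isHol_const c

theorem mem_HolH {f : ℍ → ℂ} : f ∈ HolH ↔ IsHol f := Iff.rfl

theorem HolH.isHol (f : HolH) : IsHol (f : ℍ → ℂ) := f.2

/-- The extension of a function on `ℍ` to `ℂ` (junk outside `ℍ`). -/
abbrev ext (f : ℍ → ℂ) : ℂ → ℂ := f ∘ ofComplex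

theorem ext_apply (f : ℍ → ℂ) (τ : ℍ) : ext f (τ : ℂ) = f τ := comp_ofComplex f τ

theorem ext_mul (f g : ℍ → ℂ) : ext (f * g) = ext f * ext g := rfl

theorem ext_add (f g : ℍ → ℂ) : ext (f + g) = ext f + ext g := rfl

/-- Identity theorem: a holomorphic function on `ℍ` vanishing near a point vanishes. -/
theorem IsHol.eq_zero_of_order_top {f : ℍ → ℂ} (hf : IsHol f) {τ : ℍ}
    (h : analyticOrderAt (ext f) (τ : ℂ) = ⊤) : f = 0 := by
  rw [analyticOrderAt_eq_top] at h
  have hU : IsPreconnected {z : ℂ | 0 < z.im} :=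
    (Complex.isConnected_of_upperHalfPlane subset_rfl (by grind)).isPreconnected
  have han : AnalyticOnNhd ℂ (ext f) {z : ℂ | 0 < z.im} :=
    (isHol_iff.mp hf).analyticOnNhd isOpen_upperHalfPlaneSet
  have := han.eqOn_zero_of_preconnected_of_eventuallyEq_zero hU τ.im_pos h
  ext w
  have h2 := this w.im_pos
  rwa [ext_apply] at h2

theorem IsHol.order_ne_top {f : ℍ → ℂ} (hf : IsHol f) (h0 : f ≠ 0) (τ : ℍ) :
    analyticOrderAt (ext f) (τ : ℂ) ≠ ⊤ := fun h => h0 (hf.eq_zero_of_order_top h)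

theorem order_zero (τ : ℍ) : analyticOrderAt (ext (0 : ℍ → ℂ)) (τ : ℂ) = ⊤ := by
  rw [analyticOrderAt_eq_top]
  exact Filter.Eventually.of_forall fun z => rfl

theorem HolH.coe_eq_zero {f : HolH} : (f : ℍ → ℂ) = 0 ↔ f = 0 := by
  constructor
  · intro h; exact Subtype.ext h
  · intro h; rw [h]; rfl

instance : Nontrivial HolH :=
  ⟨⟨0, 1, fun h => by
    have h1 := congrArg (fun f : HolH => (f : ℍ → ℂ) UpperHalfPlane.I) h
    simp at h1⟩⟩

instance : NoZeroDivisors HolH where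
  eq_zero_or_eq_zero_of_mul_eq_zero := by
    intro f g hfg
    by_contra hne
    push Not at hne
    obtain ⟨hf0, hg0⟩ := hne
    have hf0' : (f : ℍ → ℂ) ≠ 0 := fun h => hf0 (HolH.coe_eq_zero.mp h)
    have hg0' : (g : ℍ → ℂ) ≠ 0 := fun h => hg0 (HolH.coe_eq_zero.mp h)
    have hτ : analyticOrderAt (ext ((f : ℍ → ℂ) * (g : ℍ → ℂ))) ((UpperHalfPlane.I : ℍ) : ℂ) = ⊤ := by
      have : (f : ℍ → ℂ) * (g : ℍ → ℂ) = 0 := by
        have := congrArg (fun f : HolH => (f : ℍ → ℂ)) hfg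
        simpa using this
      rw [this]
      exact order_zero _
    rw [ext_mul, analyticOrderAt_mul ((HolH.isHol f).analyticAt _) ((HolH.isHol g).analyticAt _)] at hτ
    rcases ENat.add_eq_top.mp hτ with h | h
    · exact (HolH.isHol f).order_ne_top hf0' _ h
    · exact (HolH.isHol g).order_ne_top hg0' _ h

instance : IsDomain HolH := NoZeroDivisors.to_isDomain _

end Fermat.Agent.S24.LocalVal
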